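import Fermat.Agent.S33.Level.Stubs
import Fermat.Agent.SS.Formal.RedUp

/-!
# S33 / Level : auxiliary file for the task `S33/L-Nm` (`redPow_nmKum`)
-/

set_option autoImplicit false

open AlgebraicCurve ModularCurve

namespace Fermat.Agent.S33

open Fermat.Agent.ES Fermat.Agent.SS

noncomputable section

variable {A : ValuationSubring Qb}

theorem OrdAuxNm_redUp_of_redConst {N : ℕ} {u : FF N} (h : RedConst A u) :
    RedUp A (u : LaurentSeries Qb) 1 := by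
  obtain ⟨c, y₁, y₂, hc, -, -, h1, h2, h3⟩ := h
  exact ⟨c, hc, y₁, y₂, h2, h3, by rw [one_mul]; exact h1⟩

variable {M p : ℕ} [NeZero M] [NeZero p] {w : FF (M * p) →ₐ[Qb] FF (M * p)}

theorem OrdAuxNm_redPow_nmKum (hp : p.Prime) (hpM : ¬ p ∣ M) (hA : A.LiesOverPrime p)
    (hw : IsAL M p w) {x : Kum (M * p) p} (hx : InK1 A x) (hwx : InK1 A (wKum hw hp p x)) :
    RedPow A p (nmKum M p p x) := by
  obtain ⟨u, rfl, hu⟩ := hx
  obtain ⟨u', hu'x, hu'⟩ := hwx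
  rw [wKum_mk, Kum.mk_eq_mk_iff] at hu'x
  obtain ⟨g, hg⟩ := hu'x
  -- `w u = u' * g⁻¹ ^ p`
  have hwu : (w ((u : (FF (M * p))ˣ) : FF (M * p)) : FF (M * p)) =
      ((u' : (FF (M * p))ˣ) : FF (M * p)) * (((g⁻¹ : (FF (M * p))ˣ) : FF (M * p))) ^ p := by
    have h1 : (wU w (u : (FF (M * p))ˣ)) = (u' : (FF (M * p))ˣ) * (g⁻¹) ^ p := by
      have h2 : (u' : (FF (M * p))ˣ) = g ^ p * wU w (u : (FF (M * p))ˣ) := by
        rw [hg]
        simp
      rw [h2, inv_pow]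
      simp [mul_comm]
    have h3 := congrArg (fun v : (FF (M * p))ˣ => (v : FF (M * p))) h1
    simpa using h3
  obtain ⟨r, hr, hgr⟩ := exists_redUp A (((g⁻¹ : (FF (M * p))ˣ) : FF (M * p))) (Units.ne_zero _)
  have hV := Vq_normA hp hpM hw ((u : (FF (M * p))ˣ) : FF (M * p))
  have h1 := (OrdAuxNm_redUp_of_redConst hu).vq p
  have h2 := (OrdAuxNm_redUp_of_redConst hu').tprod hp hA
  have h3 := (hgr.pow p).tprod hp hA
  have h4 := h1.mul (h2.mul h3)
  have hr' : coeffMap (frobA hp hA) r ≠ 0 :=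
    coeffMap_ne_zero_of_injective _ (frobA hp hA).injective hr
  have h5 : RedUp A (Vq Qb p ((normA M p ((u : (FF (M * p))ˣ) : FF (M * p)) : FF M) :
      LaurentSeries Qb)) (Vq (kA A) p ((coeffMap (frobA hp hA) r) ^ p)) := by
    refine h4.congr ?_ ?_
    · rw [hV, hwu, ← twistProd_mul]
      rfl
    · rw [map_one, one_pow, one_mul, one_mul, map_pow, ← pow_eq_Vq_frobA hp hA]
  have h6 := RedUp.of_Vq p (normA M p ((u : (FF (M * p))ˣ) : FF (M * p)))
    (normA_ne_zero (Units.ne_zero _)) (pow_ne_zero p hr') h5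
  obtain ⟨a, ha, h7⟩ := h6
  exact ⟨⟨normU M p u, normU_mem_Dm u.2⟩, a, coeffMap (frobA hp hA) r, (nmKum_mk u).symm, ha, hr',
    h7⟩

end

end Fermat.Agent.S33
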