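import Fermat.Agent.S33.Level.Stubs
import Fermat.Agent.S33.Level.OrdAuxNm

/-!
# S33 / Level : `ORD ⟸ GOOD + TORIC`  (blueprint #1322, (D1)-(D4))
-/

set_option autoImplicit false

open AlgebraicCurve ModularCurve

namespace Fermat.Agent.S33

open Fermat.Agent.ES Fermat.Agent.SS

noncomputable section

variable {A : ValuationSubring Qb}

theorem DeepCl.mono {N m : ℕ} {c c' : A} {x : Kum N m} (h : c' ∣ c) (hx : DeepCl A c x) :
    DeepCl A c' x := by
  obtain ⟨u, hu, a, ha, h1⟩ := hx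
  exact ⟨u, hu, a, ha, h1.mono h⟩

theorem twist_cst (z : Qbˣ) (a : Qb) : twist z (cst a) = cst a := by
  ext n
  rw [twist_coeff]
  by_cases hn : n = 0
  · subst hn; simp
  · have : (cst a).coeff n = 0 := by
      rw [cst, algebraMap_laurentSeries_eq_single, HahnSeries.coeff_single_of_ne hn]
    rw [this, mul_zero]

theorem twistProd_cst (p : ℕ) [NeZero p] (a : Qb) : twistProd p (cst a) = cst (a ^ p) := by
  unfold twistProd
  simp only [twist_cst]
  rw [Finset.prod_const, Finset.card_univ, H1.card_roots, cst, cst, map_pow]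

variable {M p : ℕ} [NeZero M] [NeZero p] {w : FF (M * p) →ₐ[Qb] FF (M * p)}

/-- TASK `S33/L-Raise` (D1)+(D3).  `x = mk u`, `a u ≡ 1 mod c`.  `nm (w x) = 0` gives `h : (FF M)ˣ` with
`h ^ p = normU (wU w u)` (`Kum.mk_eq_zero_iff`, `nmKum_mk`, `wKum_mk`).  `SS.Vq_normA` for `w u` and
`hw.invol`: `Vq (h ^ p) = Vq (w u) * twistProd p u`.  So
`cst (a ^ p) * Vq (α h ^ p / w u) = twistProd p (cst a * u) ≡ 1 mod c'` (`CongOne.tprod`; `twistProd` is
multiplicative and `twistProd p (cst a) = cst (a ^ p)`), `CongOne.of_Vq`, `CongOne.inv`: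
`w u * (α h⁻¹) ^ p` is a representative of `w x` which is `Deep A c'`.
(`α h` and `h` are the same series: `heckeAlphaBar`.) -/
theorem raise (hp : p.Prime) (hpM : ¬ p ∣ M) (hA : A.LiesOverPrime p) (hw : IsAL M p w)
    {c c' : A} (hc' : c' ∈ IsLocalRing.maximalIdeal A) (h1 : c' ∣ c ^ p) (h2 : c' ∣ (p : A) * c)
    {x : Kum (M * p) p} (hnm : nmKum M p p (wKum hw hp p x) = 0) (hx : DeepCl A c x) :
    DeepCl A c' (wKum hw hp p x) := by
  obtain ⟨u, rfl, a, ha, hcong⟩ := hx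
  rw [wKum_mk, nmKum_mk, Kum.mk_eq_zero_iff] at hnm
  obtain ⟨h, hh⟩ := hnm
  have hh' : (h : FF M) ^ p = normA M p (w ((u : (FF (M * p))ˣ) : FF (M * p))) := by
    have := congrArg (fun t : (FF M)ˣ => (t : FF M)) hh
    simpa using this
  -- the new representative
  let v : (FF (M * p))ˣ := wU w u * (alphaU M p h⁻¹) ^ p
  have hv : v ∈ Dm (M * p) p :=
    (Dm (M * p) p).mul_mem (hw.wU_mem_Dm hp u.2) (Pw_le_Dm _ _ ⟨alphaU M p h⁻¹, rfl⟩)
  refine ⟨⟨v, hv⟩, ?_, (a ^ p)⁻¹, inv_ne_zero (pow_ne_zero _ ha), ?_⟩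
  · rw [wKum_mk, Kum.mk_eq_mk_iff]
    refine ⟨alphaU M p h⁻¹, ?_⟩
    show _ = wU w u * (alphaU M p h⁻¹) ^ p * (wU w u)⁻¹
    rw [mul_comm (wU w (u : (FF (M * p))ˣ)), mul_assoc, mul_inv_cancel, mul_one]
  · -- the function `g = v⁻¹`
    have hg0 : ((v⁻¹ : (FF (M * p))ˣ) : FF (M * p)) ≠ 0 := Units.ne_zero _
    have key : cst (a ^ p) * Vq Qb p (((v⁻¹ : (FF (M * p))ˣ) : FF (M * p)) : LaurentSeries Qb)
        = twistProd p (cst a * (((u : (FF (M * p))ˣ) : FF (M * p)) : LaurentSeries Qb)) := by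
      rw [twistProd_mul, twistProd_cst]
      congr 1
      have e1 := Vq_normA hp hpM hw (w ((u : (FF (M * p))ˣ) : FF (M * p)))
      rw [hw.invol hp, ← hh'] at e1
      have hwu : ((w ((u : (FF (M * p))ˣ) : FF (M * p)) : FF (M * p)) : LaurentSeries Qb) ≠ 0 := by
        intro h0
        exact (wU w (u : (FF (M * p))ˣ)).ne_zero (Subtype.ext h0)
      have e2 : (((v⁻¹ : (FF (M * p))ˣ) : FF (M * p)) : LaurentSeries Qb)
          = ((((h : FF M) ^ p : FF M)) : LaurentSeries Qb)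
            * ((w ((u : (FF (M * p))ˣ) : FF (M * p)) : FF (M * p)) : LaurentSeries Qb)⁻¹ := by
        have e4 : ((v⁻¹ : (FF (M * p))ˣ) : FF (M * p))
            = (heckeAlphaBar Qb M p (h : FF M)) ^ p * (w ((u : (FF (M * p))ˣ) : FF (M * p)))⁻¹ := by
          simp only [v, mul_inv, Units.val_mul, Units.val_inv_eq_inv_val, coe_wU, Units.val_pow_eq_pow_val,
            coe_alphaU, map_inv₀, inv_pow, inv_inv]
          exact mul_comm _ _
        rw [e4]
        push_cast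
        rw [coe_heckeAlphaBar]
      rw [e2, map_mul, e1, map_inv₀]
      have hV : Vq Qb p ((w ((u : (FF (M * p))ˣ) : FF (M * p)) : FF (M * p)) : LaurentSeries Qb) ≠ 0 := by
        intro h0
        exact hwu (Vq_injective (R := Qb) p (by rw [h0, map_zero]))
      field_simp
    have h3 := CongOne.of_Vq (A := A) (c := c') p ((v⁻¹ : (FF (M * p))ˣ) : FF (M * p)) hg0 (a ^ p)
      (by rw [key]; exact CongOne.tprod hp hA h1 h2 hcong)
    have h4 := h3.inv hc'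
    have e3 : (cst (a ^ p) * (((v⁻¹ : (FF (M * p))ˣ) : FF (M * p)) : LaurentSeries Qb))⁻¹
        = cst (a ^ p)⁻¹ * ((v : FF (M * p)) : LaurentSeries Qb) := by
      rw [mul_inv, cst, cst, map_inv₀, Units.val_inv_eq_inv_val]
      push_cast
      rw [inv_inv]
    rw [e3] at h4
    exact h4

/-- TASK `S33/L-Nm` (D2).  `x = mk u`, `u = const mod v_∞`; `w x = mk u'`, `u' = const mod v_∞`, so
`w u = u' * g ^ p` (`Kum.mk_eq_mk_iff`).  `Vq (normA u) = Vq u * twistProd p (w u)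
= Vq u * twistProd p u' * (twistProd p g) ^ p`.  With `RedTo.vq`, `RedTo.tprod`, `exists_redTo` for
`g` (so `twistProd p g` reduces, up to a constant, to `r ^ p`) the reduction of
`const * Vq (normA u)` is `(r ^ p) ^ p`.  In characteristic `p`: `r ^ p = Vq (Fr r)`,
`Fr := coeffMap (frobenius (kA A) p)`, so `(r ^ p) ^ p = Vq ((Fr r) ^ p)` and `RedTo.of_Vq` gives
`RedTo (const * normA u) ((Fr r) ^ p)`. -/
theorem redPow_nmKum (hp : p.Prime) (hpM : ¬ p ∣ M) (hA : A.LiesOverPrime p) (hw : IsAL M p w)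
    {x : Kum (M * p) p} (hx : InK1 A x) (hwx : InK1 A (wKum hw hp p x)) :
    RedPow A p (nmKum M p p x) :=
  OrdAuxNm_redPow_nmKum hp hpM hA hw hx hwx

/-- TASK `S33/L-Cyc`.  Every `σ` acts on `μ_p` by `ζ ↦ ζ ^ e`. -/
theorem exists_cyc (hp : p.Prime) (σ : GQ) : ∃ e : ℕ, ∀ ζ : Qb, ζ ^ p = 1 → σ ζ = ζ ^ e := by
  obtain ⟨ζ₀, h₀⟩ := HasEnoughRootsOfUnity.exists_primitiveRoot Qb p
  have h1 : (σ ζ₀) ^ p = 1 := by rw [← map_pow, h₀.pow_eq_one, map_one]
  obtain ⟨e, -, he⟩ := h₀.eq_pow_of_pow_eq_one h1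
  refine ⟨e, fun ζ hζ => ?_⟩
  obtain ⟨i, -, rfl⟩ := h₀.eq_pow_of_pow_eq_one hζ
  rw [map_pow, ← he, ← pow_mul, ← pow_mul, mul_comm]

/-- both `x` and `w x` are deep. -/
def Both (A : ValuationSubring Qb) (hw : IsAL M p w) (hp : p.Prime) (c : A)
    (x : Kum (M * p) p) : Prop :=
  DeepCl A c x ∧ DeepCl A c (wKum hw hp p x)

theorem Both.raise (hp : p.Prime) (hpM : ¬ p ∣ M) (hA : A.LiesOverPrime p) (hw : IsAL M p w)
    {c c' : A} (hc' : c' ∈ IsLocalRing.maximalIdeal A) (h1 : c' ∣ c ^ p) (h2 : c' ∣ (p : A) * c)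
    {x : Kum (M * p) p} (hnm : nmKum M p p x = 0) (hnm' : nmKum M p p (wKum hw hp p x) = 0)
    (hx : Both A hw hp c x) : Both A hw hp c' x := by
  refine ⟨?_, S33.raise hp hpM hA hw hc' h1 h2 hnm' hx.1⟩
  have := S33.raise hp hpM hA hw hc' h1 h2 (x := wKum hw hp p x) (by rw [wKum_wKum]; exact hnm) hx.2
  rwa [wKum_wKum] at this

theorem natCast_mem_maximalIdeal (hA : A.LiesOverPrime p) :
    (p : A) ∈ IsLocalRing.maximalIdeal A := by
  have h1 : (p : Qb) ∈ A.nonunits := hA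
  rw [ValuationSubring.mem_nonunits_iff_exists_mem_maximalIdeal] at h1
  obtain ⟨ha, h2⟩ := h1
  have : (p : A) = ⟨(p : Qb), ha⟩ := Subtype.ext (by simp)
  rw [this]
  exact h2

theorem Both.to_p (hp : p.Prime) (hpM : ¬ p ∣ M) (hA : A.LiesOverPrime p) (hw : IsAL M p w)
    {x : Kum (M * p) p} (hnm : nmKum M p p x = 0) (hnm' : nmKum M p p (wKum hw hp p x) = 0)
    (k : ℕ) : ∀ c : A, c ∈ IsLocalRing.maximalIdeal A → (p : A) ∣ c ^ (2 ^ k) →
      Both A hw hp c x → Both A hw hp (p : A) x := by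
  induction k with
  | zero =>
    intro c _ hd hx
    rw [pow_zero, pow_one] at hd
    exact ⟨hx.1.mono hd, hx.2.mono hd⟩
  | succ k ih =>
    intro c hc hd hx
    rcases ValuationRing.dvd_total (p : A) c with h | h
    · exact ⟨hx.1.mono h, hx.2.mono h⟩
    · refine ih (c ^ 2) (Ideal.pow_mem_of_mem _ hc 2 (by norm_num)) ?_ ?_
      · rw [← pow_mul, ← pow_succ']; exact hd
      · refine hx.raise hp hpM hA hw (Ideal.pow_mem_of_mem _ hc 2 (by norm_num))
          (pow_dvd_pow c hp.two_le) ?_ hnm hnm'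
        rw [pow_two]
        exact mul_dvd_mul_right h c

/-- **ORD from GOOD and TORIC.** -/
theorem ord_of_good_toric (hp : p.Prime) (hpM : ¬ p ∣ M) (hgood : Good M p)
    (htoric : Toric M p hp) : Ord M p hp := by
  intro A hA w hw σ hσ hω x hx hwx hfix
  -- the two norms vanish
  have hnm : nmKum M p p x = 0 :=
    hgood A hA σ hσ hω _ (redPow_nmKum hp hpM hA hw hx hwx)
      (by rw [galKum_nmKum hp hpM, hfix])
  have hnm' : nmKum M p p (wKum hw hp p x) = 0 :=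
    hgood A hA σ hσ hω _ (redPow_nmKum hp hpM hA hw hwx (by rw [wKum_wKum]; exact hx))
      (by rw [galKum_nmKum hp hpM, galKum_wKum, hfix])
  -- a first depth
  obtain ⟨c₁, hc₁, hd₁⟩ := deepCl_of_inK1 hp hA hx
  obtain ⟨c₂, hc₂, hd₂⟩ := deepCl_of_inK1 hp hA hwx
  obtain ⟨c, hc, hb⟩ : ∃ c : A, c ∈ IsLocalRing.maximalIdeal A ∧ Both A hw hp c x := by
    rcases ValuationRing.dvd_total c₁ c₂ with h | h
    · exact ⟨c₁, hc₁, hd₁, hd₂.mono h⟩
    · exact ⟨c₂, hc₂, hd₁.mono h, hd₂⟩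
  obtain ⟨n, hn⟩ := exists_dvd_pow hp hA hc
  have hn' : (p : A) ∣ c ^ (2 ^ n) := hn.trans (pow_dvd_pow c (Nat.lt_two_pow_self).le)
  have hbp := hb.to_p hp hpM hA hw hnm hnm' n c hc hn'
  have hpm := natCast_mem_maximalIdeal (p := p) hA
  have hbp2 : Both A hw hp ((p : A) ^ 2) x :=
    hbp.raise hp hpM hA hw (Ideal.pow_mem_of_mem _ hpm 2 (by norm_num))
      (pow_dvd_pow _ hp.two_le) (by rw [pow_two]) hnm hnm'
  -- TORIC
  obtain ⟨e, he⟩ := exists_cyc hp σ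
  have h1 := htoric A hA w hw σ hσ e he x hbp2.1 hbp2.2
  rw [hfix] at h1
  -- `e ≢ 1 mod p`
  have hcop : Nat.Coprime (e + (p - 1)) p := by
    rw [Nat.coprime_comm, Nat.Prime.coprime_iff_not_dvd hp]
    intro hdvd
    obtain ⟨ζ, hζ, hne⟩ := hω
    apply hne
    rw [he ζ hζ]
    obtain ⟨t, ht⟩ := hdvd
    have h2 : ζ ^ (e + (p - 1)) = 1 := by rw [ht, pow_mul, hζ, one_pow]
    have h3 : ζ ^ (e + (p - 1)) * ζ = ζ ^ e := by
      rw [← pow_succ, add_assoc, Nat.sub_add_cancel hp.one_le, pow_add, hζ, mul_one]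
    rw [← h3, h2, one_mul]
  have h4 : (e + (p - 1)) • x = 0 := by
    have h5 : (e + (p - 1)) • x + x = x := by
      rw [add_smul, ← h1, add_assoc, ← succ_nsmul, Nat.sub_add_cancel hp.one_le,
        Kum.nsmul_eq_zero, add_zero]
    exact add_eq_right.mp h5
  have h6 : p • x = 0 := Kum.nsmul_eq_zero x
  have h7 : (Nat.gcd (e + (p - 1)) p) • x = 0 := by
    have hb := Nat.gcd_eq_gcd_ab (e + (p - 1)) p
    have : ((Nat.gcd (e + (p - 1)) p : ℕ) : ℤ) • x = 0 := by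
      have e1 : (((e + (p - 1) : ℕ) : ℤ) * (e + (p - 1)).gcdA p) • x = 0 := by
        rw [mul_comm ((e + (p - 1) : ℕ) : ℤ), mul_smul, natCast_zsmul, h4, smul_zero]
      have e2 : ((p : ℤ) * (e + (p - 1)).gcdB p) • x = 0 := by
        rw [mul_comm (p : ℤ), mul_smul, natCast_zsmul, h6, smul_zero]
      rw [hb, add_smul, e1, e2, add_zero]
    rwa [natCast_zsmul] at this
  rw [hcop, one_smul] at h7
  exact h7

end

end Fermat.Agent.S33
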