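import Mathlib
import Fermat.Prelude.Def_ModularCurve_LaurentCoeff

/-!
# S33 / Level / Gauss : the Gauss lemma mod `c` in `A((q))`  (task `S33/L-Gauss`)

* `Gauss_dvd_pow` : rank one: in a local domain of characteristic zero, `a ∈ 𝔪` and `c ≠ 0` algebraic over `ℤ`
  ⟹ `c ∣ a ^ n` for some `n`  (primitive integer polynomial of `a`).
* `Gauss_decomp`  : a power series with a unit coefficient is `unit + element of J` in `R((q))`, for every ideal `J`
  containing the constants of `𝔪`.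
* `dvd_of_mul_dvd'` : the Gauss lemma.
-/

set_option autoImplicit false

open ModularCurve Polynomial

namespace Fermat.Agent.S33

section GaussAux

variable {R : Type*} [CommRing R] [IsDomain R]

theorem Gauss_int_dvd {c : R} (hc : c ≠ 0) (halg : IsAlgebraic ℤ c) :
    ∃ k : ℤ, k ≠ 0 ∧ c ∣ (k : R) := by
  obtain ⟨f, hf0, hf⟩ := halg
  obtain ⟨g, hg, hgX⟩ := Polynomial.exists_eq_pow_rootMultiplicity_mul_and_not_dvd f hf0 0
  rw [map_zero, sub_zero] at hg hgX
  have hg0 : g.coeff 0 ≠ 0 := fun h => hgX (Polynomial.X_dvd_iff.2 h)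
  have hgc : aeval c g = 0 := by
    rw [hg, map_mul, map_pow, aeval_X] at hf
    exact (mul_eq_zero.1 hf).resolve_left (pow_ne_zero _ hc)
  refine ⟨g.coeff 0, hg0, ?_⟩
  have h1 := congrArg (aeval c) (Polynomial.divX_mul_X_add g)
  rw [map_add, map_mul, aeval_X, aeval_C, hgc, eq_intCast] at h1
  exact ⟨- aeval c g.divX, by linear_combination h1⟩

variable [IsLocalRing R]

omit [IsDomain R] in
theorem Gauss_isUnit_aeval {a : R} (ha : a ∈ IsLocalRing.maximalIdeal R) {r : ℤ} (hr : Prime r)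
    (hrm : (r : R) ∈ IsLocalRing.maximalIdeal R) (f : ℤ[X]) (h0 : ¬ r ∣ f.coeff 0) :
    IsUnit (aeval a f) := by
  by_contra hu
  have hm : aeval a f ∈ IsLocalRing.maximalIdeal R := (IsLocalRing.mem_maximalIdeal _).2 hu
  have h1 := congrArg (aeval a) (Polynomial.divX_mul_X_add f)
  rw [map_add, map_mul, aeval_X, aeval_C, eq_intCast] at h1
  have hk : ((f.coeff 0 : ℤ) : R) ∈ IsLocalRing.maximalIdeal R := by
    have : ((f.coeff 0 : ℤ) : R) = aeval a f - aeval a f.divX * a := by rw [← h1]; ring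
    rw [this]
    exact Ideal.sub_mem _ hm (Ideal.mul_mem_left _ _ ha)
  obtain ⟨u, v, huv⟩ := (hr.irreducible.coprime_iff_not_dvd).2 h0
  have h2 : ((u : ℤ) : R) * (r : R) + (v : R) * ((f.coeff 0 : ℤ) : R) = 1 := by
    exact_mod_cast congrArg (Int.cast : ℤ → R) huv
  have h3 : (1 : R) ∈ IsLocalRing.maximalIdeal R := by
    rw [← h2]
    exact Ideal.add_mem _ (Ideal.mul_mem_left _ _ hrm) (Ideal.mul_mem_left _ _ hk)
  exact (Ideal.ne_top_iff_one _).1 (IsLocalRing.maximalIdeal.isMaximal R).ne_top h3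

omit [IsDomain R] in
theorem Gauss_prime_dvd_pow {a : R} (ha : a ∈ IsLocalRing.maximalIdeal R) {r : ℤ} (hr : Prime r)
    (hrm : (r : R) ∈ IsLocalRing.maximalIdeal R) (i : ℕ) :
    ∀ (f : ℤ[X]) (m : ℕ), ¬ r ∣ f.coeff i → (r : R) ∣ a ^ m * aeval a f →
      ∃ n : ℕ, (r : R) ∣ a ^ n := by
  have key : ∀ (f : ℤ[X]) (m : ℕ), ¬ r ∣ f.coeff 0 → (r : R) ∣ a ^ m * aeval a f →
      ∃ n : ℕ, (r : R) ∣ a ^ n := fun f m h0 hd =>
    ⟨m, ((Gauss_isUnit_aeval ha hr hrm f h0).dvd_mul_right).1 hd⟩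
  induction i with
  | zero => exact key
  | succ i ih =>
    intro f m hi hd
    by_cases h0 : r ∣ f.coeff 0
    · refine ih f.divX (m + 1) (by rwa [Polynomial.coeff_divX]) ?_
      have h1 := congrArg (aeval a) (Polynomial.divX_mul_X_add f)
      rw [map_add, map_mul, aeval_X, aeval_C, eq_intCast] at h1
      have h2 : a ^ (m + 1) * aeval a f.divX
          = a ^ m * aeval a f - a ^ m * ((f.coeff 0 : ℤ) : R) := by
        rw [← h1]; ring
      rw [h2]
      exact dvd_sub hd (Dvd.dvd.mul_left (map_dvd (Int.castRingHom R) h0) _)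
    · exact key f m h0 hd

theorem Gauss_nat_dvd_pow [CharZero R] {a : R} (ha : a ∈ IsLocalRing.maximalIdeal R)
    (halg : IsAlgebraic ℤ a) (k : ℕ) : k ≠ 0 → ∃ n : ℕ, (k : R) ∣ a ^ n := by
  obtain ⟨f, hf0, hf⟩ := halg
  have hfp : aeval a f.primPart = 0 := Polynomial.aeval_primPart_eq_zero hf0 hf
  induction k using induction_on_primes with
  | zero => intro h; exact absurd rfl h
  | one => intro _; exact ⟨0, by simp⟩
  | prime_mul p k hp ih =>
    intro hk
    obtain ⟨n, hn⟩ := ih (fun h => hk (by rw [h, mul_zero]))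
    have hp' : ∃ n' : ℕ, (p : R) ∣ a ^ n' := by
      by_cases hu : IsUnit (p : R)
      · exact ⟨0, hu.dvd⟩
      · have hrm : ((p : ℤ) : R) ∈ IsLocalRing.maximalIdeal R := by
          rw [Int.cast_natCast]; exact (IsLocalRing.mem_maximalIdeal _).2 hu
        have hr : Prime (p : ℤ) := Nat.prime_iff_prime_int.1 hp
        have hex : ∃ i, ¬ (p : ℤ) ∣ f.primPart.coeff i := by
          by_contra hall
          push Not at hall
          have := f.isPrimitive_primPart (p : ℤ) ((Polynomial.C_dvd_iff_dvd_coeff _ _).2 hall)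
          exact hr.not_isUnit this
        obtain ⟨i, hi⟩ := hex
        obtain ⟨n', hn'⟩ := Gauss_prime_dvd_pow ha hr hrm i f.primPart 0 hi (by rw [hfp]; simp)
        exact ⟨n', by rwa [Int.cast_natCast] at hn'⟩
    obtain ⟨n', hn'⟩ := hp'
    exact ⟨n' + n, by rw [Nat.cast_mul, pow_add]; exact mul_dvd_mul hn' hn⟩

theorem Gauss_dvd_pow [CharZero R] {a c : R} (ha : a ∈ IsLocalRing.maximalIdeal R)
    (halg : IsAlgebraic ℤ a) (hc : c ≠ 0) (hcalg : IsAlgebraic ℤ c) : ∃ n : ℕ, c ∣ a ^ n := by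
  obtain ⟨k, hk, hck⟩ := Gauss_int_dvd hc hcalg
  obtain ⟨n, hn⟩ := Gauss_nat_dvd_pow ha halg k.natAbs (Int.natAbs_ne_zero.2 hk)
  refine ⟨n, hck.trans (Dvd.dvd.trans ?_ hn)⟩
  have : k ∣ (k.natAbs : ℤ) := Int.dvd_natAbs_self
  simpa using map_dvd (Int.castRingHom R) this

end GaussAux

section GaussSeries

theorem Gauss_dvd_of_unit_add {S : Type*} [CommRing S] {d y V z : S} (hV : IsUnit V) (n : ℕ)
    (hz : d ∣ z ^ n) (h : d ∣ y * (V + z)) : d ∣ y := by
  obtain ⟨v, rfl⟩ := hV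
  set x : S := -(↑v⁻¹ * z) with hx
  have h1 : y = y * (↑v + z) * (↑v⁻¹ * ∑ i ∈ Finset.range n, x ^ i) + y * x ^ n := by
    have h2 : (↑v + z) * ↑v⁻¹ = 1 - x := by
      rw [hx, add_mul, Units.mul_inv]; ring
    have h3 := mul_neg_geom_sum x n
    calc y = y * (1 - x ^ n) + y * x ^ n := by ring
      _ = y * ((1 - x) * ∑ i ∈ Finset.range n, x ^ i) + y * x ^ n := by rw [h3]
      _ = _ := by rw [← h2]; ring
  rw [h1]
  refine dvd_add (Dvd.dvd.mul_right h _) (Dvd.dvd.mul_left ?_ _)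
  rw [hx, neg_pow, mul_pow]
  exact Dvd.dvd.mul_left (Dvd.dvd.mul_left hz _) _

variable {R : Type*} [CommRing R] [IsLocalRing R]

theorem Gauss_decomp (J : Ideal (LaurentSeries R))
    (hJ : ∀ a ∈ IsLocalRing.maximalIdeal R, (HahnSeries.C a : LaurentSeries R) ∈ J) (n : ℕ) :
    ∀ P : PowerSeries R, (∀ i < n, PowerSeries.coeff i P ∈ IsLocalRing.maximalIdeal R) →
      IsUnit (PowerSeries.coeff n P) →
      ∃ U z : LaurentSeries R, IsUnit U ∧ z ∈ J ∧ HahnSeries.ofPowerSeries ℤ R P = U + z := by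
  induction n with
  | zero =>
    intro P _ hu
    refine ⟨HahnSeries.ofPowerSeries ℤ R P, 0, ?_, J.zero_mem, (add_zero _).symm⟩
    refine IsUnit.map _ (PowerSeries.isUnit_iff_constantCoeff.2 ?_)
    simpa using hu
  | succ n ih =>
    intro P hP hu
    obtain ⟨U, z, hU, hz, hPz⟩ := ih (PowerSeries.mk fun p => PowerSeries.coeff (p + 1) P)
      (fun i hi => by rw [PowerSeries.coeff_mk]; exact hP (i + 1) (by omega))
      (by rw [PowerSeries.coeff_mk]; exact hu)
    have hX : IsUnit (HahnSeries.ofPowerSeries ℤ R (PowerSeries.X : PowerSeries R)) := by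
      rw [HahnSeries.ofPowerSeries_X]
      refine IsUnit.of_mul_eq_one (HahnSeries.single (-1 : ℤ) (1 : R)) ?_
      rw [HahnSeries.single_mul_single]
      simp
    refine ⟨HahnSeries.ofPowerSeries ℤ R PowerSeries.X * U,
      HahnSeries.ofPowerSeries ℤ R PowerSeries.X * z
        + HahnSeries.C (PowerSeries.constantCoeff P), hX.mul hU,
      J.add_mem (J.mul_mem_left _ hz) (hJ _ ?_), ?_⟩
    · have := hP 0 (Nat.succ_pos n)
      simpa using this
    · conv_lhs => rw [PowerSeries.eq_X_mul_shift_add_const P]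
      rw [map_add, map_mul, hPz, HahnSeries.ofPowerSeries_C]
      ring

end GaussSeries

theorem Gauss_isAlgebraic {A : ValuationSubring (AlgebraicClosure ℚ)} (a : A) : IsAlgebraic ℤ a := by
  have h1 : IsAlgebraic ℚ (a : AlgebraicClosure ℚ) :=
    (AlgebraicClosure.isAlgebraic ℚ).isAlgebraic _
  have h2 : IsAlgebraic ℤ (a : AlgebraicClosure ℚ) :=
    (IsFractionRing.isAlgebraic_iff ℤ ℚ (AlgebraicClosure ℚ)).2 h1
  exact (isAlgebraic_algebraMap_iff (A := AlgebraicClosure ℚ) (S := A)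
    (Subtype.val_injective)).1 h2

theorem dvd_of_mul_dvd' {A : ValuationSubring (AlgebraicClosure ℚ)} {c : A}
    (y y₂ y₃ : LaurentSeries A) (h0 : coeffMap (IsLocalRing.residue A) y₂ ≠ 0)
    (h : y * y₂ = HahnSeries.C c * y₃) : ∃ y₄ : LaurentSeries A, y = HahnSeries.C c * y₄ := by
  have hy₂ : y₂ ≠ 0 := fun h => h0 (by rw [h, map_zero])
  by_cases hc : c = 0
  · subst hc
    rw [map_zero, zero_mul] at h
    exact ⟨0, by rw [(mul_eq_zero.1 h).resolve_right hy₂, mul_zero]⟩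
  -- a unit coefficient
  obtain ⟨k, hk⟩ : ∃ k : ℤ, (coeffMap (IsLocalRing.residue A) y₂).coeff k ≠ 0 := by
    by_contra hall
    push Not at hall
    exact h0 (HahnSeries.ext (funext hall))
  rw [coeffMap_coeff] at hk
  have hku : IsUnit (y₂.coeff k) := by
    by_contra hu
    exact hk ((IsLocalRing.residue_eq_zero_iff _).2 ((IsLocalRing.mem_maximalIdeal _).2 hu))
  have hkne : y₂.coeff k ≠ 0 := hku.ne_zero
  have hle : y₂.order ≤ k := HahnSeries.order_le_of_coeff_ne_zero hkne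
  obtain ⟨j, hj⟩ := Int.le.dest hle
  have hex : ∃ j : ℕ, IsUnit (PowerSeries.coeff j y₂.powerSeriesPart) :=
    ⟨j, by rw [LaurentSeries.powerSeriesPart_coeff, hj]; exact hku⟩
  classical
  set J : Ideal (LaurentSeries A) := (Ideal.span {(HahnSeries.C c : LaurentSeries A)}).radical with hJ
  have hJm : ∀ a ∈ IsLocalRing.maximalIdeal A, (HahnSeries.C a : LaurentSeries A) ∈ J := by
    intro a ha
    obtain ⟨n, hn⟩ := Gauss_dvd_pow ha (Gauss_isAlgebraic a) hc (Gauss_isAlgebraic c)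
    refine ⟨n, Ideal.mem_span_singleton.2 ?_⟩
    rw [← map_pow]
    exact map_dvd (HahnSeries.C : A →+* LaurentSeries A) hn
  obtain ⟨U, z, hU, hz, hP⟩ := Gauss_decomp J hJm (Nat.find hex) y₂.powerSeriesPart
    (fun i hi => (IsLocalRing.mem_maximalIdeal _).2 (Nat.find_min hex hi)) (Nat.find_spec hex)
  have hS : IsUnit (HahnSeries.single y₂.order (1 : A) : LaurentSeries A) := by
    refine IsUnit.of_mul_eq_one (HahnSeries.single (-y₂.order) (1 : A)) ?_
    rw [HahnSeries.single_mul_single]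
    simp
  have hy₂' : y₂ = HahnSeries.single y₂.order (1 : A) * U + HahnSeries.single y₂.order (1 : A) * z := by
    rw [← mul_add, ← hP]
    exact (LaurentSeries.single_order_mul_powerSeriesPart y₂).symm
  obtain ⟨n, hn⟩ : HahnSeries.single y₂.order (1 : A) * z ∈ J := J.mul_mem_left _ hz
  have hd : (HahnSeries.C c : LaurentSeries A) ∣ y :=
    Gauss_dvd_of_unit_add (hS.mul hU) n (Ideal.mem_span_singleton.1 hn)
      (by rw [← hy₂', h]; exact dvd_mul_right _ _)
  exact hd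

end Fermat.Agent.S33
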