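import Fermat.Agent.S33.Defs
import Fermat.Agent.Crux.Descent
import Fermat.Agent.Crux.GM.H1a

/-!
# S33 / Level : `deepCl_of_inK1` (number field descent)

Two `A`-integral elements of `F_N` with the same reduction are congruent modulo some nonunit `c` of `A`.
-/

set_option autoImplicit false

open AlgebraicCurve ModularCurve

namespace Fermat.Agent.S33

open Fermat.Agent.ES Fermat.Agent.SS
open Fermat.Agent.Crux (A0)

noncomputable section

namespace K1Deep

variable (K₀ : Type*) [Field K₀] [Algebra K₀ Qb] (A : ValuationSubring Qb)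

/-- `A₀ = A ∩ K₀ → A`. -/
def incl : A0 K₀ A →+* A where
  toFun a := ⟨algebraMap K₀ Qb (a : K₀), a.2⟩
  map_one' := Subtype.ext (by simp)
  map_mul' a b := Subtype.ext (by simp)
  map_zero' := Subtype.ext (by simp)
  map_add' a b := Subtype.ext (by simp)

theorem residue_incl_eq_zero_iff (a : A0 K₀ A) :
    resA A (incl K₀ A a) = 0 ↔ IsLocalRing.residue (A0 K₀ A) a = 0 :=
  (Fermat.Agent.Crux.residue_comap_eq_zero_iff (algebraMap K₀ Qb) A a (incl K₀ A a) rfl).symm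

theorem res_incl_eq_zero (z : LaurentSeries (A0 K₀ A))
    (h : coeffMap (resA A) (coeffMap (incl K₀ A) z) = 0) :
    coeffMap (IsLocalRing.residue (A0 K₀ A)) z = 0 := by
  ext n
  have := congrArg (fun s => s.coeff n) h
  simp only [coeffMap_coeff, HahnSeries.coeff_zero] at this
  rw [coeffMap_coeff, HahnSeries.coeff_zero]
  exact (residue_incl_eq_zero_iff K₀ A _).1 this

/-- a series over `K₀` whose base change is `A`-integral. -/
theorem exists_incl_series (u : LaurentSeries K₀) (y : LaurentSeries A)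
    (h : coeffMap (algebraMap K₀ Qb) u = coeffMap A.subtype y) :
    ∃ z : LaurentSeries (A0 K₀ A), coeffMap (incl K₀ A) z = y := by
  obtain ⟨z, -, hz'⟩ := Fermat.Agent.Crux.exists_A0_series K₀ A u y h
  refine ⟨z, ?_⟩
  ext n
  rw [coeffMap_coeff]
  exact hz' n

end K1Deep

variable {A : ValuationSubring Qb}

open K1Deep in
/-- Two `A`-integral elements of `F_N` with the same reduction are congruent modulo a nonunit. -/
theorem exists_sub_eq_C_mul {N p : ℕ} [NeZero N] (hp : p.Prime) (hA : A.LiesOverPrime p)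
    (y₁ y₂ : LaurentSeries A) (h₁ : coeffMap A.subtype y₁ ∈ modularFunctionFieldBar N)
    (h₂ : coeffMap A.subtype y₂ ∈ modularFunctionFieldBar N)
    (hred : coeffMap (resA A) y₁ = coeffMap (resA A) y₂) :
    ∃ c : A, c ∈ IsLocalRing.maximalIdeal A ∧ c ≠ 0 ∧
      ∃ y₃ : LaurentSeries A, y₁ - y₂ = HahnSeries.C c * y₃ := by
  classical
  obtain ⟨p₁, q₁, -, hf₁⟩ := Fermat.Agent.S24.exists_phiF_div N ⟨_, h₁⟩
  obtain ⟨p₂, q₂, -, hf₂⟩ := Fermat.Agent.S24.exists_phiF_div N ⟨_, h₂⟩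
  obtain ⟨K₀, hfin, hS⟩ : ∃ K₀ : IntermediateField ℚ Qb, FiniteDimensional ℚ K₀ ∧
      ∀ c ∈ p₁.coeffs ∪ q₁.coeffs ∪ p₂.coeffs ∪ q₂.coeffs, c ∈ K₀ :=
    ⟨IntermediateField.adjoin ℚ
      ((p₁.coeffs ∪ q₁.coeffs ∪ p₂.coeffs ∪ q₂.coeffs : Finset Qb) : Set Qb),
      IntermediateField.finiteDimensional_adjoin fun x _ =>
        ((AlgebraicClosure.isAlgebraic ℚ).isAlgebraic x).isIntegral,
      fun c hc => IntermediateField.subset_adjoin _ _ (Finset.mem_coe.mpr hc)⟩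
  have hnf : NumberField K₀ := ⟨⟩
  have hS' : ∀ c ∈ p₁.coeffs ∪ q₁.coeffs ∪ p₂.coeffs ∪ q₂.coeffs,
      c ∈ Set.range (algebraMap K₀ Qb) := fun c hc => ⟨⟨c, hS c hc⟩, rfl⟩
  obtain ⟨u₁, -, hu₁'⟩ := Fermat.Agent.Crux.exists_model N K₀ _ p₁ q₁ hf₁
    (fun c hc => hS' c (by simp only [Finset.mem_union]; tauto))
    (fun c hc => hS' c (by simp only [Finset.mem_union]; tauto))
  obtain ⟨u₂, -, hu₂'⟩ := Fermat.Agent.Crux.exists_model N K₀ _ p₂ q₂ hf₂
    (fun c hc => hS' c (by simp only [Finset.mem_union]; tauto))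
    (fun c hc => hS' c (by simp only [Finset.mem_union]; tauto))
  obtain ⟨z₁, rfl⟩ := exists_incl_series K₀ A u₁ y₁ hu₁'
  obtain ⟨z₂, rfl⟩ := exists_incl_series K₀ A u₂ y₂ hu₂'
  have hdvr : IsDiscreteValuationRing (A0 K₀ A) :=
    Fermat.Agent.Crux.isDiscreteValuationRing_of_numberField _
      (Fermat.Agent.Crux.A0_ne_top K₀ A hp hA)
  obtain ⟨π, hπ⟩ := IsDiscreteValuationRing.exists_irreducible (A0 K₀ A)
  have h0 : coeffMap (IsLocalRing.residue (A0 K₀ A)) (z₁ - z₂) = 0 :=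
    res_incl_eq_zero K₀ A _ (by rw [map_sub, map_sub, hred, sub_self])
  obtain ⟨w, hw⟩ := Fermat.Agent.Crux.GM.exists_eq_C_mul_of_red_eq_zero
    (IsLocalRing.residue (A0 K₀ A)) IsLocalRing.residue_surjective hπ h0
  refine ⟨incl K₀ A π, ?_, ?_, coeffMap (incl K₀ A) w, ?_⟩
  · rw [← IsLocalRing.residue_eq_zero_iff]
    apply (residue_incl_eq_zero_iff K₀ A π).2
    rw [IsLocalRing.residue_eq_zero_iff, hπ.maximalIdeal_eq]
    exact Ideal.mem_span_singleton_self π
  · intro h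
    apply hπ.ne_zero
    apply Subtype.ext
    apply (algebraMap K₀ Qb).injective
    rw [ZeroMemClass.coe_zero, map_zero]
    exact congrArg Subtype.val h
  · rw [← map_sub, hw, map_mul]
    congr 1
    exact coeffMap_single _ _ _

/-- A function which is constant mod `v_∞` is constant modulo some nonunit `c ≠ 0`. -/
theorem deepCl_of_inK1_aux {N m p : ℕ} [NeZero N] (hp : p.Prime) (hA : A.LiesOverPrime p)
    {x : Kum N m} (h : InK1 A x) :
    ∃ c : A, c ∈ IsLocalRing.maximalIdeal A ∧ c ≠ 0 ∧ DeepCl A c x := by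
  obtain ⟨u, hu, a, y₁, y₂, ha, h₁, h₂, hred, hne, he⟩ := h
  obtain ⟨c, hc, hc0, y₃, hy₃⟩ := exists_sub_eq_C_mul hp hA y₁ y₂ h₁ h₂ hred
  exact ⟨c, hc, hc0, u, hu, a, ha, y₁, y₂, y₃, hne, he, hy₃⟩

end

end Fermat.Agent.S33
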