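import Fermat.Agent.S33.Defs

/-!
# S33 / Level : depth raising for `twistProd` (task `S33/L-TProd`), formal part

`R` a domain with exactly `p` roots of unity of order dividing `p` (`p` prime).  Then
`twistProd p (y₂ + c y₃) - twistProd p y₂ ∈ (c ^ p, p c) R((q))`.

Proof (derivative trick): `P(T) = ∏_z tw_z (y₂ + T y₃) ∈ R((q))[T]`, `P' = ∑_z tw_z Q` with
`Q = y₃ ∏_{w ≠ 1} tw_w (y₂ + T y₃)`; a trace `∑_z tw_z s` is divisible by `p`, so `i e_i ∈ p R((q))`
and (Bezout) `e_i ∈ p R((q))` for `0 < i < p`.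
-/

set_option autoImplicit false

open AlgebraicCurve ModularCurve

namespace Fermat.Agent.S33

open Fermat.Agent.ES Fermat.Agent.SS

noncomputable section

variable {R : Type*} [CommRing R]

/-- a series all of whose coefficients are divisible by `c` is divisible by the constant `c`. -/
theorem TProd_dvd_of_coeff {c : R} (x : LaurentSeries R) (h : ∀ n, c ∣ x.coeff n) :
    HahnSeries.C c ∣ x := by
  classical
  choose t ht using h
  let y : LaurentSeries R :=
    { coeff := fun n => if x.coeff n = 0 then 0 else t n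
      isPWO_support' := x.isPWO_support.mono fun n hn => by
        simp only [Function.mem_support, ne_eq] at hn
        rw [HahnSeries.mem_support]
        intro h0
        exact hn (if_pos h0) }
  refine ⟨y, ?_⟩
  ext n
  rw [HahnSeries.C_mul_eq_smul, HahnSeries.coeff_smul, smul_eq_mul]
  change x.coeff n = c * (if x.coeff n = 0 then 0 else t n)
  split_ifs with h0
  · rw [h0, mul_zero]
  · exact ht n

theorem TProd_twist_C (z : Rˣ) (c : R) :
    twist z (HahnSeries.C c : LaurentSeries R) = HahnSeries.C c := by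
  ext n
  rw [twist_coeff, HahnSeries.C_apply, HahnSeries.coeff_single]
  split_ifs with h
  · subst h; simp
  · simp

theorem TProd_natCast_eq_C (n : ℕ) : ((n : ℕ) : LaurentSeries R) = HahnSeries.C (n : R) := by
  rw [map_natCast]

variable [IsDomain R] (p : ℕ) [NeZero p]

/-- power sums of roots of unity -/
theorem TProd_dvd_sum_zpow (hcard : Fintype.card (rootsOfUnity p R) = p) (n : ℤ) :
    (p : R) ∣ ∑ z : rootsOfUnity p R, (((z : Rˣ) ^ n : Rˣ) : R) := by
  by_cases h : ∀ z : rootsOfUnity p R, (z : Rˣ) ^ n = 1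
  · simp only [h, Units.val_one, Finset.sum_const, Finset.card_univ, hcard, nsmul_eq_mul, mul_one,
      dvd_refl]
  · push Not at h
    obtain ⟨z₀, hz₀⟩ := h
    have h1 : (((z₀ : Rˣ) ^ n : Rˣ) : R) * ∑ z : rootsOfUnity p R, (((z : Rˣ) ^ n : Rˣ) : R)
        = ∑ z : rootsOfUnity p R, (((z : Rˣ) ^ n : Rˣ) : R) := by
      rw [Finset.mul_sum]
      refine Fintype.sum_equiv (Equiv.mulLeft z₀) _ _ fun z => ?_
      rw [Equiv.coe_mulLeft, Subgroup.coe_mul, mul_zpow, Units.val_mul]
    have h2 : ((((z₀ : Rˣ) ^ n : Rˣ) : R) - 1) *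
        ∑ z : rootsOfUnity p R, (((z : Rˣ) ^ n : Rˣ) : R) = 0 := by
      rw [sub_mul, h1, one_mul, sub_self]
    rcases mul_eq_zero.mp h2 with h3 | h3
    · exact absurd (Units.ext (by rw [Units.val_one]; exact sub_eq_zero.mp h3)) hz₀
    · rw [h3]; exact dvd_zero _

/-- a trace is divisible by `p`. -/
theorem TProd_dvd_sum_twist (hcard : Fintype.card (rootsOfUnity p R) = p) (s : LaurentSeries R) :
    HahnSeries.C (p : R) ∣ ∑ z : rootsOfUnity p R, twist (z : Rˣ) s := by
  apply TProd_dvd_of_coeff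
  intro n
  rw [HahnSeries.coeff_sum]
  simp only [twist_coeff]
  rw [← Finset.sum_mul]
  exact Dvd.dvd.mul_right (TProd_dvd_sum_zpow p hcard n) _

/-- the linear polynomial `y₂ + T y₃`. -/
def TProd_L (y₂ y₃ : LaurentSeries R) : Polynomial (LaurentSeries R) :=
  Polynomial.C y₂ + Polynomial.X * Polynomial.C y₃

/-- `P(T) = ∏_z tw_z (y₂ + T y₃)`. -/
def TProd_P (y₂ y₃ : LaurentSeries R) : Polynomial (LaurentSeries R) :=
  ∏ z : rootsOfUnity p R, (TProd_L y₂ y₃).map (twist (z : Rˣ))

omit [IsDomain R] in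
theorem TProd_map_L (z : Rˣ) (y₂ y₃ : LaurentSeries R) :
    (TProd_L y₂ y₃).map (twist z) = TProd_L (twist z y₂) (twist z y₃) := by
  simp [TProd_L]

theorem TProd_eval_P (y₂ y₃ : LaurentSeries R) (c : R) :
    (TProd_P p y₂ y₃).eval (HahnSeries.C c) = twistProd p (y₂ + HahnSeries.C c * y₃) := by
  unfold TProd_P twistProd
  rw [Polynomial.eval_prod]
  refine Finset.prod_congr rfl fun z _ => ?_
  rw [TProd_map_L, TProd_L, map_add, map_mul, TProd_twist_C]
  simp only [Polynomial.eval_add, Polynomial.eval_C, Polynomial.eval_mul, Polynomial.eval_X]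

theorem TProd_coeff_zero_P (y₂ y₃ : LaurentSeries R) :
    (TProd_P p y₂ y₃).coeff 0 = twistProd p y₂ := by
  rw [Polynomial.coeff_zero_eq_eval_zero]
  unfold TProd_P twistProd
  rw [Polynomial.eval_prod]
  refine Finset.prod_congr rfl fun z _ => ?_
  rw [TProd_map_L, TProd_L]
  simp

theorem TProd_natDegree_P (hcard : Fintype.card (rootsOfUnity p R) = p)
    (y₂ y₃ : LaurentSeries R) : (TProd_P p y₂ y₃).natDegree ≤ p := by
  unfold TProd_P
  refine (Polynomial.natDegree_prod_le _ _).trans ?_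
  calc ∑ z : rootsOfUnity p R, ((TProd_L y₂ y₃).map (twist (z : Rˣ))).natDegree
      ≤ ∑ _z : rootsOfUnity p R, 1 := by
        refine Finset.sum_le_sum fun z _ => ?_
        rw [TProd_map_L, TProd_L]
        refine (Polynomial.natDegree_add_le _ _).trans ?_
        rw [Polynomial.natDegree_C]
        refine max_le (Nat.zero_le _) ?_
        refine (Polynomial.natDegree_mul_C_le _ _).trans ?_
        exact Polynomial.natDegree_X_le
    _ = p := by rw [Finset.sum_const, Finset.card_univ, hcard, smul_eq_mul, mul_one]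

open Classical in
/-- `Q = y₃ ∏_{w ≠ 1} tw_w (y₂ + T y₃)`. -/
def TProd_Q (y₂ y₃ : LaurentSeries R) : Polynomial (LaurentSeries R) :=
  (∏ w ∈ (Finset.univ : Finset (rootsOfUnity p R)).erase 1, (TProd_L y₂ y₃).map (twist (w : Rˣ))) *
    Polynomial.C y₃

theorem TProd_derivative_P (y₂ y₃ : LaurentSeries R) :
    Polynomial.derivative (TProd_P p y₂ y₃)
      = ∑ z : rootsOfUnity p R, (TProd_Q p y₂ y₃).map (twist (z : Rˣ)) := by
  classical
  unfold TProd_P TProd_Q
  rw [Polynomial.derivative_prod_finset]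
  refine Finset.sum_congr rfl fun z _ => ?_
  rw [Polynomial.map_mul, Polynomial.map_prod, Polynomial.map_C]
  congr 1
  · symm
    refine Finset.prod_bij (fun w _ => z * w) ?_ ?_ ?_ ?_
    · intro w hw
      rw [Finset.mem_erase] at hw ⊢
      refine ⟨fun h => hw.1 ?_, Finset.mem_univ _⟩
      exact mul_eq_left.mp h
    · intro w _ w' _ h
      exact mul_left_cancel h
    · intro w hw
      refine ⟨z⁻¹ * w, ?_, by group⟩
      rw [Finset.mem_erase] at hw ⊢
      refine ⟨fun h => hw.1 ?_, Finset.mem_univ _⟩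
      rw [inv_mul_eq_one] at h
      exact h.symm
    · intro w _
      rw [TProd_map_L, TProd_map_L, TProd_map_L, twist_twist, twist_twist, Subgroup.coe_mul]
  · rw [TProd_map_L, TProd_L]
    simp

/-- the middle coefficients of `P` are divisible by `p`. -/
theorem TProd_dvd_coeff_P (hp : p.Prime) (hcard : Fintype.card (rootsOfUnity p R) = p)
    (y₂ y₃ : LaurentSeries R) (i : ℕ) (hi0 : 0 < i) (hip : i < p) :
    HahnSeries.C (p : R) ∣ (TProd_P p y₂ y₃).coeff i := by
  obtain ⟨j, rfl⟩ : ∃ j, i = j + 1 := ⟨i - 1, by omega⟩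
  have h1 : HahnSeries.C (p : R) ∣ (TProd_P p y₂ y₃).coeff (j + 1) * ((j + 1 : ℕ) : LaurentSeries R) := by
    have h := Polynomial.coeff_derivative (TProd_P p y₂ y₃) j
    rw [TProd_derivative_P, Polynomial.finsetSum_coeff] at h
    simp only [Polynomial.coeff_map] at h
    push_cast
    rw [← h]
    exact TProd_dvd_sum_twist p hcard _
  have hcop : IsCoprime ((j + 1 : ℕ) : ℤ) (p : ℤ) := by
    rw [Nat.isCoprime_iff_coprime]
    exact (Nat.Coprime.symm ((Nat.Prime.coprime_iff_not_dvd hp).mpr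
      (fun hd => absurd (Nat.le_of_dvd hi0 hd) (by omega))))
  obtain ⟨a, b, hab⟩ := hcop
  have hab' : (a : LaurentSeries R) * ((j + 1 : ℕ) : LaurentSeries R)
      + (b : LaurentSeries R) * ((p : ℕ) : LaurentSeries R) = 1 := by
    have := congrArg (Int.cast : ℤ → LaurentSeries R) hab
    push_cast at this ⊢
    exact this
  have h2 : (TProd_P p y₂ y₃).coeff (j + 1)
      = (a : LaurentSeries R) * ((TProd_P p y₂ y₃).coeff (j + 1) * ((j + 1 : ℕ) : LaurentSeries R))
        + ((p : ℕ) : LaurentSeries R) * ((b : LaurentSeries R) * (TProd_P p y₂ y₃).coeff (j + 1)) := by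
    linear_combination (-(TProd_P p y₂ y₃).coeff (j + 1)) * hab'
  rw [h2]
  refine dvd_add (Dvd.dvd.mul_left h1 _) ?_
  rw [TProd_natCast_eq_C]
  exact Dvd.intro _ rfl

/-- **depth raising**, formal version. -/
theorem TProd_main (hp : p.Prime) (hcard : Fintype.card (rootsOfUnity p R) = p) {c c' : R}
    (h1 : c' ∣ c ^ p) (h2 : c' ∣ (p : R) * c) (y₂ y₃ : LaurentSeries R) :
    HahnSeries.C c' ∣ twistProd p (y₂ + HahnSeries.C c * y₃) - twistProd p y₂ := by
  rw [← TProd_eval_P, ← TProd_coeff_zero_P p y₂ y₃,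
    Polynomial.eval_eq_sum_range' (Nat.lt_succ_of_le (TProd_natDegree_P p hcard y₂ y₃)),
    Finset.sum_range_succ', pow_zero, mul_one, add_sub_cancel_right]
  refine Finset.dvd_sum fun i hi => ?_
  rw [Finset.mem_range] at hi
  have hC : ∀ {a b : R}, a ∣ b → (HahnSeries.C a : LaurentSeries R) ∣ HahnSeries.C b := by
    rintro a _ ⟨d, rfl⟩
    exact ⟨HahnSeries.C d, by rw [map_mul]⟩
  rcases Nat.lt_or_ge (i + 1) p with hlt | hge
  · have h3 := TProd_dvd_coeff_P p hp hcard y₂ y₃ (i + 1) (Nat.succ_pos i) hlt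
    have h4 : (HahnSeries.C c : LaurentSeries R) ∣ HahnSeries.C c ^ (i + 1) :=
      dvd_pow_self _ (Nat.succ_ne_zero i)
    refine (hC h2).trans ?_
    rw [map_mul]
    exact mul_dvd_mul h3 h4
  · have : i + 1 = p := by omega
    rw [this, ← map_pow]
    exact Dvd.dvd.mul_left (hC h1) _

end

end Fermat.Agent.S33
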