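import Fermat.Agent.S33.Defs
import Fermat.Agent.S33.Level.Gauss
import Fermat.Agent.S33.Level.TProdAux
import Fermat.Agent.S33.Level.K1Deep

/-!
# S33 / Level : the leaf lemmas of `ORD ⟸ GOOD + TORIC`  (blueprint #1322, (D1)-(D3))

Each `sorry` below is one task (project `S33`, names `S33/L-*`).  Everything is formal
(`SS/Formal/Red.lean` style), except `deepCl_of_inK1` and `exists_dvd_pow` (number field descent).
-/

set_option autoImplicit false

open AlgebraicCurve ModularCurve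

namespace Fermat.Agent.S33

open Fermat.Agent.ES Fermat.Agent.SS

noncomputable section

variable {A : ValuationSubring Qb}

/-! ### `S33/L-Cong` : calculus of `CongOne` -/

theorem CongOne.mono {c c' : A} {x : LaurentSeries Qb} (h : c' ∣ c) (hx : CongOne A c x) :
    CongOne A c' x := by
  obtain ⟨y₁, y₂, y₃, h0, h1, h2⟩ := hx
  obtain ⟨d, rfl⟩ := h
  exact ⟨y₁, y₂, HahnSeries.C d * y₃, h0, h1, by rw [h2, map_mul, mul_assoc]⟩

theorem CongOne.one (c : A) : CongOne A c 1 :=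
  ⟨1, 1, 0, by rw [map_one]; exact one_ne_zero, by rw [map_one, mul_one], by simp⟩

/-- TASK `S33/L-Cong`.  Multiply numerators and denominators:
`y₁ z₁ - y₂ z₂ = (y₁ - y₂) z₁ + y₂ (z₁ - z₂)`. -/
theorem CongOne.mul {c : A} {x x' : LaurentSeries Qb} (h : CongOne A c x) (h' : CongOne A c x') :
    CongOne A c (x * x') := by
  obtain ⟨y₁, y₂, y₃, h0, h1, h2⟩ := h
  obtain ⟨z₁, z₂, z₃, k0, k1, k2⟩ := h'
  refine ⟨y₁ * z₁, y₂ * z₂, y₃ * z₁ + y₂ * z₃, ?_, ?_, ?_⟩
  · rw [map_mul]; exact mul_ne_zero h0 k0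
  · rw [map_mul, map_mul, ← h1, ← k1]; ring
  · linear_combination z₁ * h2 + y₂ * k2

/-- TASK `S33/L-Cong`.  Swap `y₁`, `y₂`.  Needs `c` a nonunit (so that `ȳ₁ = ȳ₂ ≠ 0`). -/
theorem CongOne.inv {c : A} (hc : c ∈ IsLocalRing.maximalIdeal A) {x : LaurentSeries Qb}
    (h : CongOne A c x) : CongOne A c x⁻¹ := by
  obtain ⟨y₁, y₂, y₃, h0, h1, h2⟩ := h
  have hres : resA A c = 0 := (IsLocalRing.residue_eq_zero_iff c).2 hc
  have e : coeffMap (resA A) y₁ = coeffMap (resA A) y₂ := by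
    have e1 : y₁ = y₂ + HahnSeries.C c * y₃ := by rw [← h2]; ring
    rw [e1, map_add, map_mul, HahnSeries.C_apply, coeffMap_single, hres, HahnSeries.single_eq_zero,
      zero_mul, add_zero]
  have h3 : coeffMap (resA A) y₁ ≠ 0 := by rw [e]; exact h0
  have h4 : coeffMap A.subtype y₁ ≠ 0 := coeffMap_subtype_ne_zero h3
  have hx : x ≠ 0 := by
    rintro rfl
    rw [zero_mul] at h1
    exact h4 h1.symm
  refine ⟨y₂, y₁, -y₃, h3, ?_, ?_⟩
  · rw [← h1, inv_mul_cancel_left₀ hx]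
  · linear_combination -h2

/-- TASK `S33/L-Cong`.  Apply `Vq` to `y₁ y₂ y₃` (`coeffMap_Vq`, `Vq_injective`; `Vq (C c) = C c`). -/
theorem CongOne.vq {c : A} (ℓ : ℕ) [NeZero ℓ] {x : LaurentSeries Qb} (h : CongOne A c x) :
    CongOne A c (Vq Qb ℓ x) := by
  obtain ⟨y₁, y₂, y₃, h0, h1, h2⟩ := h
  refine ⟨Vq A ℓ y₁, Vq A ℓ y₂, Vq A ℓ y₃, ?_, ?_, ?_⟩
  · rw [coeffMap_Vq]
    intro h
    exact h0 (Vq_injective ℓ (by rw [h, map_zero]))
  · rw [coeffMap_Vq, coeffMap_Vq, ← map_mul, h1]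
  · rw [← map_sub, h2, map_mul, qExpand_C]

/-- TASK `S33/L-Gauss` (**Gauss lemma mod `c`**).  If `y * y₂ ∈ c A((q))` and `ȳ₂ ≠ 0` then
`y ∈ c A((q))`.  Proof: wlog `c ≠ 0`, `c` a nonunit.  In `(A ⧸ c)((q))` the image of `y₂` is
`(unit series) + (nilpotent)`: let `n₁` be the least index with `y₂.coeff n₁` a unit; the finitely
many coefficients of index `< n₁` lie in the maximal ideal, so are nilpotent mod `c`
(`exists_dvd_pow`-type: the value group has rank one; or: `a ∈ 𝔪`, `c ≠ 0` ⟹ `c ∣ a ^ n` for some `n`).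
Alternative without quotients: induction on the nilpotency. -/
theorem dvd_of_mul_dvd {c : A} (y y₂ y₃ : LaurentSeries A) (h0 : coeffMap (resA A) y₂ ≠ 0)
    (h : y * y₂ = HahnSeries.C c * y₃) : ∃ y₄ : LaurentSeries A, y = HahnSeries.C c * y₄ :=
  dvd_of_mul_dvd' y y₂ y₃ h0 h

/-- TASK `S33/L-OfVq`.  `f ∈ F_N`, `a * Vq f ≡ 1 mod c` ⟹ `a * f ≡ 1 mod c`.
Proof: `SS.RedTo.of_Vq` style: by `ES.exists_integral_fraction`, `f = c₀ * u / v` with
`u v ∈ A((q))` of nonzero reduction; `a c₀ Vq u / Vq v = y₁ / y₂`; `RedTo.const` shows that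
`d := a c₀ ∈ A`; then `(d Vq u - Vq v) y₂ = Vq v (y₁ - y₂) ∈ c A((q))`, `dvd_of_mul_dvd` gives
`Vq (d u - v) ∈ c A((q))`, i.e. all coefficients of `d u - v` are divisible by `c`. -/
theorem CongOne.of_Vq {N : ℕ} [NeZero N] {c : A} (ℓ : ℕ) [NeZero ℓ] (f : FF N) (hf : f ≠ 0) (a : Qb)
    (h : CongOne A c (cst a * Vq Qb ℓ (f : LaurentSeries Qb))) :
    CongOne A c (cst a * (f : LaurentSeries Qb)) := by
  obtain ⟨y₁, y₂, y₃, h0, h1, h2⟩ := h
  obtain ⟨c₀, u, v, hc₀, -, -, hu, hv, e⟩ := ES.exists_integral_fraction N A f hf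
  have hVu : coeffMap (resA A) (Vq A ℓ u) ≠ 0 := by
    rw [coeffMap_Vq]
    intro h
    exact hu (Vq_injective ℓ (by rw [h, map_zero]))
  -- the relation after `Vq`
  have e' : Vq Qb ℓ (f : LaurentSeries Qb) * coeffMap A.subtype (Vq A ℓ v)
      = cst c₀ * coeffMap A.subtype (Vq A ℓ u) := by
    rw [coeffMap_Vq, coeffMap_Vq, ← map_mul, e, map_mul, Vq_cst]
  have e2 : cst (a * c₀) * coeffMap A.subtype (Vq A ℓ u * y₂)
      = coeffMap A.subtype (y₁ * Vq A ℓ v) := by
    rw [map_mul, map_mul, ← h1, cst, map_mul]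
    linear_combination (-(algebraMap Qb (LaurentSeries Qb) a) * coeffMap A.subtype y₂) * e'
  -- `d = a c₀` is integral
  have hred : RedTo A (cst (a * c₀))
      (coeffMap (resA A) (y₁ * Vq A ℓ v) / coeffMap (resA A) (Vq A ℓ u * y₂)) := by
    have hne : coeffMap (resA A) (Vq A ℓ u * y₂) ≠ 0 := by
      rw [map_mul]; exact mul_ne_zero hVu h0
    exact ⟨y₁ * Vq A ℓ v, Vq A ℓ u * y₂, hne, e2, by rw [div_mul_cancel₀ _ hne]⟩
  obtain ⟨d, hd, -⟩ := hred.const
  have hCd : coeffMap A.subtype (HahnSeries.C d) = cst (a * c₀) := by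
    rw [cst, algebraMap_laurentSeries_eq_single, ← hd, HahnSeries.C_apply, coeffMap_single]
    rfl
  have e3 : HahnSeries.C d * Vq A ℓ u * y₂ = y₁ * Vq A ℓ v := by
    apply coeffMap_subtype_injective A
    rw [mul_assoc, map_mul, hCd, e2]
  have e4 : (HahnSeries.C d * Vq A ℓ u - Vq A ℓ v) * y₂ = HahnSeries.C c * (Vq A ℓ v * y₃) := by
    linear_combination e3 + (Vq A ℓ v) * h2
  obtain ⟨y₄, hy₄⟩ := dvd_of_mul_dvd _ y₂ _ h0 e4
  have hVC : Vq A ℓ (HahnSeries.C d) = HahnSeries.C d := by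
    rw [HahnSeries.C_apply, qExpand_single, mul_zero]
  have e5 : Vq A ℓ (HahnSeries.C d * u - v) = HahnSeries.C c * y₄ := by
    rw [map_sub, map_mul, hVC, hy₄]
  refine ⟨HahnSeries.C d * u, v, contract ℓ y₄, hv, ?_, ?_⟩
  · rw [map_mul, hCd, mul_assoc, e, cst, cst, map_mul]
    ring
  · refine HahnSeries.ext (funext fun n => ?_)
    have := congrArg (fun s => s.coeff ((ℓ : ℤ) * n)) e5
    simp only [qExpand_coeff_mul] at this
    rw [this, HahnSeries.C_mul_eq_smul, HahnSeries.C_mul_eq_smul, HahnSeries.coeff_smul,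
      HahnSeries.coeff_smul, contract_coeff]

/-- TASK `S33/L-TProd` (**depth raising**, blueprint (C2)/(D3)).  `x ≡ 1 mod c` ⟹
`twistProd p x ≡ 1 mod c'` for every `c'` dividing `c ^ p` and `p * c`.
Proof: `x = y₁ / y₂`, `y₁ = y₂ + c y₃`.  `twistProd p (y₂ + c y₃) = ∑_{S ⊆ μ_p} c^{|S|} ∏_{z ∈ S} tw_z y₃ ∏_{z ∉ S} tw_z y₂`
(`Finset.prod_add`).  `S = ∅` gives `twistProd p y₂`; `S = univ` gives `c ^ p * twistProd p y₃`;
the other `S` are permuted freely by `μ_p` (translation), and `tw_ζ` maps the `S`-term to the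
`ζS`-term; the sum over an orbit of `t` is `∑_ζ tw_ζ t`, whose `n`-th coefficient is
`(∑_ζ ζ^n) t_n ∈ {0, p t_n}`.  So the middle terms lie in `p c A((q))`. -/
theorem CongOne.tprod {p : ℕ} [NeZero p] (hp : p.Prime) (hA : A.LiesOverPrime p) {c c' : A}
    (h1 : c' ∣ c ^ p) (h2 : c' ∣ (p : A) * c) {x : LaurentSeries Qb} (h : CongOne A c x) :
    CongOne A c' (twistProd p x) := by
  obtain ⟨y₁, y₂, y₃, h0, hx, hy⟩ := h
  obtain rfl : y₁ = y₂ + HahnSeries.C c * y₃ := by rw [← hy]; ring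
  obtain ⟨y₄, hy₄⟩ := TProd_main p hp (card_rootsOfUnity_A A p) h1 h2 y₂ y₃
  refine ⟨twistProd p (y₂ + HahnSeries.C c * y₃), twistProd p y₂, y₄, ?_, ?_, hy₄⟩
  · rw [coeffMap_res_twistProd hp hA]
    exact pow_ne_zero _ h0
  · rw [coeffMap_twistProd _ _ (bijective_restrict_subtype A p),
      coeffMap_twistProd _ _ (bijective_restrict_subtype A p), ← twistProd_mul, hx]

/-- TASK `S33/L-Arch`.  The value group of `A` has rank one: a nonunit `c` has a power divisible by
`p`.  Proof: `K₀ = ℚ(c)` is a number field, `A₀ = A ∩ K₀` is a DVR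
(`Crux.isDiscreteValuationRing_of_numberField`, `Crux.A0_ne_top`), `c = unit * π ^ i` with `i ≥ 1`,
`p = unit * π ^ e`; `n = e`. -/
theorem exists_dvd_pow {p : ℕ} (hp : p.Prime) (hA : A.LiesOverPrime p) {c : A}
    (hc : c ∈ IsLocalRing.maximalIdeal A) : ∃ n : ℕ, (p : A) ∣ c ^ n := by
  classical
  -- `p` lies in the maximal ideal
  have hpm : (p : A) ∈ IsLocalRing.maximalIdeal A := by
    have h1 : (p : Qb) ∈ A.nonunits := hA
    rw [ValuationSubring.mem_nonunits_iff_exists_mem_maximalIdeal] at h1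
    obtain ⟨ha, h2⟩ := h1
    have : (p : A) = ⟨(p : Qb), ha⟩ := Subtype.ext (by simp)
    rw [this]
    exact h2
  -- a primitive integral polynomial killing `c`
  have h1 : IsAlgebraic ℤ (c : Qb) :=
    (IsFractionRing.isAlgebraic_iff ℤ ℚ Qb).mpr
      ((AlgebraicClosure.isAlgebraic ℚ).isAlgebraic (c : Qb))
  obtain ⟨P, hP0, hP⟩ := h1
  have hP' := Polynomial.aeval_primPart_eq_zero hP0 hP
  set Q := P.primPart with hQ
  have hQc : Polynomial.aeval c Q = 0 := by
    apply Subtype.val_injective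
    have : ((Polynomial.aeval c Q : A) : Qb) = Polynomial.aeval (c : Qb) Q := by
      have := Polynomial.aeval_algebraMap_apply Qb c Q
      exact this.symm
    rw [this, hP']
    rfl
  -- some coefficient is prime to `p`
  have hex : ∃ i, ¬ (p : ℤ) ∣ Q.coeff i := by
    by_contra hcon
    push Not at hcon
    have h2 : Polynomial.C (p : ℤ) ∣ Q := by
      rw [Polynomial.C_dvd_iff_dvd_coeff]
      exact hcon
    have h3 := P.isPrimitive_primPart _ h2
    rw [Int.isUnit_iff] at h3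
    have := hp.one_lt
    omega
  set i := Nat.find hex with hi
  have hi1 : ¬ (p : ℤ) ∣ Q.coeff i := Nat.find_spec hex
  have hi2 : ∀ j < i, (p : ℤ) ∣ Q.coeff j := fun j hj => by
    have := Nat.find_min hex hj
    push Not at this
    exact this
  refine ⟨i, ?_⟩
  rw [Polynomial.aeval_eq_sum_range] at hQc
  set d := Q.natDegree with hd
  -- the unit
  set u : A := ∑ j ∈ (Finset.range (d + 1)).filter (fun j => i ≤ j), (Q.coeff j : A) * c ^ (j - i)
    with hu
  have hsplit : (∑ j ∈ (Finset.range (d + 1)).filter (fun j => i ≤ j), Q.coeff j • c ^ j) +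
      ∑ j ∈ (Finset.range (d + 1)).filter (fun j => ¬ i ≤ j), Q.coeff j • c ^ j = 0 := by
    rw [Finset.sum_filter_add_sum_filter_not]
    exact hQc
  have hA1 : ∑ j ∈ (Finset.range (d + 1)).filter (fun j => i ≤ j), Q.coeff j • c ^ j = c ^ i * u := by
    rw [hu, Finset.mul_sum]
    refine Finset.sum_congr rfl fun j hj => ?_
    have hij : i ≤ j := (Finset.mem_filter.mp hj).2
    rw [zsmul_eq_mul]
    calc (Q.coeff j : A) * c ^ j = (Q.coeff j : A) * c ^ (i + (j - i)) := by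
          rw [Nat.add_sub_cancel' hij]
      _ = c ^ i * ((Q.coeff j : A) * c ^ (j - i)) := by rw [pow_add]; ring
  have hA2 : (p : A) ∣ ∑ j ∈ (Finset.range (d + 1)).filter (fun j => ¬ i ≤ j), Q.coeff j • c ^ j := by
    refine Finset.dvd_sum fun j hj => ?_
    have hij : j < i := not_le.mp (Finset.mem_filter.mp hj).2
    obtain ⟨b, hb⟩ := hi2 j hij
    rw [zsmul_eq_mul, hb]
    push_cast
    exact Dvd.intro _ (mul_assoc _ _ _).symm
  have hunit : IsUnit u := by
    by_contra hnu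
    have hum : u ∈ IsLocalRing.maximalIdeal A := (IsLocalRing.mem_maximalIdeal u).mpr hnu
    -- the coefficient `a_i` lies in the maximal ideal
    have hid : i ≤ d := by
      by_contra hlt
      apply hi1
      rw [Polynomial.coeff_eq_zero_of_natDegree_lt (not_le.mp hlt)]
      exact dvd_zero _
    have hmem : i ∈ (Finset.range (d + 1)).filter (fun j => i ≤ j) :=
      Finset.mem_filter.mpr ⟨Finset.mem_range.mpr (by omega), le_refl i⟩
    have hrest : ∑ j ∈ ((Finset.range (d + 1)).filter (fun j => i ≤ j)).erase i,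
        (Q.coeff j : A) * c ^ (j - i) ∈ IsLocalRing.maximalIdeal A := by
      refine Ideal.sum_mem _ fun j hj => ?_
      have hj1 := Finset.mem_erase.mp hj
      have hij : i ≤ j := (Finset.mem_filter.mp hj1.2).2
      have hpos : j - i ≠ 0 := by
        have := hj1.1
        omega
      exact Ideal.mul_mem_left _ _ (Ideal.pow_mem_of_mem _ hc _ (Nat.pos_of_ne_zero hpos))
    have hai : (Q.coeff i : A) ∈ IsLocalRing.maximalIdeal A := by
      have h5 := Finset.add_sum_erase _ (fun j => (Q.coeff j : A) * c ^ (j - i)) hmem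
      simp only [Nat.sub_self, pow_zero, mul_one] at h5
      have h6 : (Q.coeff i : A) = u - ∑ j ∈ ((Finset.range (d + 1)).filter (fun j => i ≤ j)).erase i,
        (Q.coeff j : A) * c ^ (j - i) := by
        rw [hu, ← h5]; ring
      rw [h6]
      exact Ideal.sub_mem _ hum hrest
    have hcop : IsCoprime (Q.coeff i) (p : ℤ) := by
      have := (Nat.prime_iff_prime_int.mp hp).coprime_iff_not_dvd.mpr hi1
      exact this.symm
    obtain ⟨s, t, hst⟩ := hcop
    have h7 : (1 : A) ∈ IsLocalRing.maximalIdeal A := by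
      have h8 : (1 : A) = (s : A) * (Q.coeff i : A) + (t : A) * (p : A) := by
        have := congrArg (fun z : ℤ => (z : A)) hst
        push_cast at this
        exact this.symm
      rw [h8]
      exact Ideal.add_mem _ (Ideal.mul_mem_left _ _ hai) (Ideal.mul_mem_left _ _ hpm)
    exact (Ideal.ne_top_iff_one _).mp (IsLocalRing.maximalIdeal.isMaximal A).ne_top h7
  rw [hA1] at hsplit
  have h9 : (p : A) ∣ c ^ i * u := by
    rw [eq_neg_of_add_eq_zero_left hsplit]
    exact (dvd_neg).mpr hA2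
  exact (hunit.dvd_mul_right).mp h9

/-- TASK `S33/L-K1Deep`.  A function which is constant mod `v_∞` is constant modulo some nonunit
`c ≠ 0`.  Proof: `RedConst` gives `y₁ y₂ ∈ F_N ∩ A((q))`; by `Crux.exists_model` (+ `S24.phiF`
presentations) both come from a number field `K₀`, `Crux.exists_A0_series` makes them series over the
DVR `A₀ = A ∩ K₀`, all coefficients of `y₁ - y₂` are nonunits of `A₀`, so divisible by a uniformiser
`π`; `c := π`. -/
theorem deepCl_of_inK1 {N m p : ℕ} [NeZero N] (hp : p.Prime) (hA : A.LiesOverPrime p)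
    {x : Kum N m} (h : InK1 A x) :
    ∃ c : A, c ∈ IsLocalRing.maximalIdeal A ∧ DeepCl A c x := by
  obtain ⟨c, hc, -, h'⟩ := deepCl_of_inK1_aux hp hA h
  exact ⟨c, hc, h'⟩

end

end Fermat.Agent.S33
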